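import Fermat.Agent.LinnikNonresidue.Smooth
import Fermat.Agent.BombieriVinogradov.Characters
import Mathlib.NumberTheory.LegendreSymbol.QuadraticChar.Basic
import Mathlib.NumberTheory.Chebyshev

/-!
# Linnik's theorem on the least quadratic non-residue

If all `m ≤ N ^ ε` are squares modulo `p ≤ N`, then the quadratic character modulo `p` is `1` on
every `N ^ ε`-smooth number up to `N ^ 3`, and the large sieve allows few such `p`.
-/

set_option autoImplicit false

noncomputable section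

namespace FA.LinnikNonresidue

open Finset Filter
open FA.BombieriVinogradov (sieveConst largeSieve_chars primChars mem_primChars)
open scoped Topology

theorem exists_nonsquare_le {p : ℕ} (hp : p.Prime) (hp2 : p ≠ 2) :
    ∃ m < p, ¬ IsSquare (m : ZMod p) := by
  have := Fact.mk hp
  obtain ⟨a, ha⟩ := FiniteField.exists_nonsquare (F := ZMod p) (by rwa [ZMod.ringChar_zmod_n])
  exact ⟨a.val, ZMod.val_lt a, by rwa [ZMod.natCast_zmod_val]⟩

theorem exists_char {p : ℕ} (hp : p.Prime) (hp2 : p ≠ 2) :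
    ∃ χ : DirichletCharacter ℂ p, χ ∈ primChars p ∧
      ∀ n : ℕ, ¬ p ∣ n → IsSquare (n : ZMod p) → χ n = 1 := by
  have := Fact.mk hp
  obtain ⟨χ, hχ⟩ : ∃ χ : DirichletCharacter ℂ p,
      χ = (quadraticChar (ZMod p)).ringHomComp (Int.castRingHom ℂ) := ⟨_, rfl⟩
  refine ⟨χ, mem_primChars.2 ?_, fun n hn hsq => ?_⟩
  · rcases (Nat.dvd_prime hp).1 (DirichletCharacter.conductor_dvd_level χ) with h | h
    · exact absurd ((DirichletCharacter.eq_one_iff_conductor_eq_one).2 h)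
        (hχ ▸ MulChar.ringHomComp_ne_one_iff Int.cast_injective |>.2
          (quadraticChar_ne_one (by rwa [ZMod.ringChar_zmod_n])))
    · exact h
  · rw [hχ, MulChar.ringHomComp_apply, (quadraticChar_one_iff_isSquare
      fun h => hn ((ZMod.natCast_eq_zero_iff _ _).1 h)).2 hsq]
    simp

/-- A prime with no small non-residue is large, and the smooth numbers are squares modulo it. -/
theorem isSquare_of_smooth {p : ℕ} (hp : p.Prime) (hp2 : p ≠ 2) {y : ℝ}
    (hy : ∀ m : ℕ, (m : ℝ) ≤ y → IsSquare (m : ZMod p)) {n : ℕ} (hn : 0 < n)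
    (hs : ∀ q : ℕ, q.Prime → q ∣ n → (q : ℝ) ≤ y) : ¬ p ∣ n ∧ IsSquare (n : ZMod p) := by
  have := Fact.mk hp
  refine ⟨fun hd => ?_, ?_⟩
  · obtain ⟨m, hm, hns⟩ := exists_nonsquare_le hp hp2
    exact hns (hy m ((Nat.cast_le.2 hm.le).trans (hs p hp hd)))
  induction n using induction_on_primes with
  | zero => omega
  | one => exact ⟨1, by simp⟩
  | prime_mul q m hq ih =>
    rw [Nat.cast_mul]
    exact (hy q (hs q hq (dvd_mul_right q m))).mul
      (ih (Nat.pos_of_mul_pos_left hn) fun l hl hd => hs l hl (hd.mul_left q))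

theorem sieveConst_cube_le {N : ℕ} (hN : 1 ≤ N) : sieveConst (N ^ 3) N ≤ 10 * (N : ℝ) ^ 3 := by
  have h1 : (1 : ℝ) ≤ N := Nat.one_le_cast.2 hN
  have h2 : Real.log ((N * N + 1 : ℕ) : ℝ) ≤ 3 * N := by
    refine (Real.log_le_log (by positivity) (y := 2 * (N : ℝ) * N) ?_).trans ?_
    · push_cast
      nlinarith
    · rw [Real.log_mul (by positivity) (by positivity), Real.log_mul two_ne_zero (by positivity)]
      linarith [Real.log_le_sub_one_of_pos (show (0 : ℝ) < N by linarith), Real.log_two_lt_d9]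
  rw [sieveConst]
  push_cast
  push_cast at h2
  nlinarith [mul_le_mul_of_nonneg_left (add_le_add_left h2 1)
    (show (0 : ℝ) ≤ 2 * ((N : ℝ) * N) by positivity)]

/-- The odd primes `≤ N` without non-residues `≤ y`, against the large sieve. -/
theorem card_mul_card_smooth_le {N : ℕ} (hN : 1 ≤ N) {y : ℝ} (P : Finset ℕ)
    (hP : ∀ p ∈ P, p.Prime ∧ p ≠ 2 ∧ p ≤ N ∧ ∀ m : ℕ, (m : ℝ) ≤ y → IsSquare (m : ZMod p)) :
    (P.card : ℝ) * (smoothUpTo (N ^ 3) y).card ≤ 10 * (N : ℝ) ^ 3 := by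
  obtain ⟨S, hS⟩ : ∃ S, S = smoothUpTo (N ^ 3) y := ⟨_, rfl⟩
  rw [← hS]
  rcases Nat.eq_zero_or_pos S.card with h0 | hpos
  · rw [h0, Nat.cast_zero, mul_zero]
    positivity
  have hSI : S ⊆ Ioc 0 (0 + N ^ 3) := fun n hn => by
    rw [zero_add]
    exact mem_Ioc.2 (mem_smoothUpTo.1 (hS ▸ hn)).1
  have h := largeSieve_chars N 0 (N ^ 3) fun n => if n ∈ S then 1 else 0
  have hr : ∑ n ∈ Ioc 0 (0 + N ^ 3), ‖(if n ∈ S then (1 : ℂ) else 0)‖ ^ 2 = (S.card : ℝ) := by
    rw [sum_congr rfl fun n _ => show ‖(if n ∈ S then (1 : ℂ) else 0)‖ ^ 2 =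
      if n ∈ S then (1 : ℝ) else 0 by split_ifs <;> simp, sum_ite_mem, inter_eq_right.2 hSI]
    simp
  rw [hr] at h
  have hlow : ∀ p ∈ P, (S.card : ℝ) ^ 2 ≤ (p : ℝ) / p.totient *
      ∑ χ ∈ primChars p,
        ‖∑ n ∈ Ioc 0 (0 + N ^ 3), (if n ∈ S then (1 : ℂ) else 0) * χ n‖ ^ 2 := by
    intro p hp
    obtain ⟨hpp, hp2, -, hsq⟩ := hP p hp
    have := Fact.mk hpp
    obtain ⟨χ, hχ, hχ1⟩ := exists_char hpp hp2
    refine le_trans ?_ (le_mul_of_one_le_left (sum_nonneg fun _ _ => sq_nonneg _) ?_)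
    · refine le_trans (le_of_eq ?_) (single_le_sum (fun _ _ => sq_nonneg _) hχ)
      simp only [ite_mul, one_mul, zero_mul]
      rw [sum_ite_mem, inter_eq_right.2 hSI, sum_congr rfl fun n hn => ?_]
      · rw [sum_const, nsmul_one, Complex.norm_natCast]
      · have hn' := mem_smoothUpTo.1 (hS ▸ hn)
        exact hχ1 n (isSquare_of_smooth hpp hp2 hsq hn'.1.1 hn'.2).1
          (isSquare_of_smooth hpp hp2 hsq hn'.1.1 hn'.2).2
    · rw [one_le_div (Nat.cast_pos.2 (Nat.totient_pos.2 hpp.pos))]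
      exact Nat.cast_le.2 (Nat.totient_le p)
  have h1 : (P.card : ℝ) * (S.card : ℝ) ^ 2 ≤ sieveConst (N ^ 3) N * S.card := by
    refine le_trans (le_of_eq_of_le ?_ (sum_le_sum hlow)) (le_trans ?_ h)
    · rw [sum_const, nsmul_eq_mul]
    · refine sum_le_sum_of_subset_of_nonneg (fun p hp => mem_Icc.2
        ⟨(hP p hp).1.one_le, (hP p hp).2.2.1⟩) fun q _ _ => ?_
      exact mul_nonneg (div_nonneg (Nat.cast_nonneg _) (Nat.cast_nonneg _))
        (sum_nonneg fun _ _ => sq_nonneg _)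
  rw [pow_two, ← mul_assoc] at h1
  exact (le_of_mul_le_mul_right h1 (Nat.cast_pos.2 hpos)).trans (sieveConst_cube_le hN)

/-- **Linnik's theorem.** -/
theorem exists_card_exceptional_le {ε : ℝ} (hε : 0 < ε) :
    ∃ C : ℝ, ∀ (N : ℕ) (P : Finset ℕ),
      (∀ p ∈ P, p.Prime ∧ p ≤ N ∧ ∀ m : ℕ, (m : ℝ) ≤ (N : ℝ) ^ ε → IsSquare (m : ZMod p)) →
        (P.card : ℝ) ≤ C := by
  obtain ⟨δ, hδ, h⟩ := exists_smooth_proportion (show 0 < ε / 3 by positivity)
  obtain ⟨N₀, hN₀⟩ := eventually_atTop.1 h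
  refine ⟨max (N₀ + 2 : ℕ) (10 / δ + 1), fun N P hP => ?_⟩
  rcases lt_or_ge N (max N₀ 1) with hN | hN
  · refine le_max_of_le_left (Nat.cast_le.2 ((card_le_card (t := range (N₀ + 2))
      fun p hp => mem_range.2 ?_).trans (by simp)))
    have := (hP p hp).2.1
    omega
  refine le_max_of_le_right ?_
  rw [max_le_iff] at hN
  have hN1 : (1 : ℝ) ≤ N := Nat.one_le_cast.2 hN.2
  have h1 := card_mul_card_smooth_le hN.2 (P.erase 2) fun p hp =>
    ⟨(hP p (mem_of_mem_erase hp)).1, ne_of_mem_erase hp, (hP p (mem_of_mem_erase hp)).2⟩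
  have h2 := hN₀ (N ^ 3) (hN.1.trans (Nat.le_self_pow (by norm_num) N))
  rw [Nat.cast_pow, ← Real.rpow_natCast_mul (Nat.cast_nonneg N),
    show ((3 : ℕ) : ℝ) * (ε / 3) = ε by push_cast; ring] at h2
  have h3 : ((P.erase 2).card : ℝ) ≤ 10 / δ := by
    rw [le_div_iff₀ hδ]
    refine le_of_mul_le_mul_right (le_trans (le_of_eq_of_le (mul_assoc _ _ _)
      (mul_le_mul_of_nonneg_left h2 (Nat.cast_nonneg _))) h1) (by positivity)
  have h4 : (P.card : ℝ) ≤ ((P.erase 2).card : ℝ) + 1 := by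
    exact_mod_cast Nat.sub_le_iff_le_add.1 (pred_card_le_card_erase (a := 2) (s := P))
  linarith

/-- The primes `≤ N` whose least non-residue exceeds `p ^ ε`. -/
def exceptional (ε : ℝ) (N : ℕ) : Finset ℕ :=
  open scoped Classical in
  (range (N + 1)).filter fun p : ℕ =>
    p.Prime ∧ ∀ m : ℕ, (m : ℝ) ≤ (p : ℝ) ^ ε → IsSquare (m : ZMod p)

theorem exists_card_exceptional_two_pow_le {ε : ℝ} (hε : 0 < ε) :
    ∃ C : ℝ, 0 ≤ C ∧ ∀ i : ℕ, ((exceptional ε (2 ^ 2 ^ i)).card : ℝ) ≤ C * i + 3 := by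
  classical
  obtain ⟨C, hC⟩ := exists_card_exceptional_le (half_pos hε)
  refine ⟨max C 0, le_max_right _ _, fun i => ?_⟩
  induction i with
  | zero =>
    rw [Nat.cast_zero, mul_zero, zero_add]
    have h3 : (exceptional ε (2 ^ 2 ^ 0)).card ≤ 3 := (card_filter_le _ _).trans (by simp)
    exact_mod_cast h3
  | succ i ih =>
    obtain ⟨P, hP⟩ : ∃ P, P = exceptional ε (2 ^ 2 ^ (i + 1)) \ exceptional ε (2 ^ 2 ^ i) :=
      ⟨_, rfl⟩
    have h1 : (P.card : ℝ) ≤ C := hC (2 ^ 2 ^ (i + 1)) P fun p hp => by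
      rw [hP, Finset.mem_sdiff, exceptional, exceptional, mem_filter, mem_filter,
        mem_range, mem_range]
        at hp
      obtain ⟨⟨hlt, hpp, hsq⟩, hnot⟩ := hp
      have hge : 2 ^ 2 ^ i < p := by
        by_contra h
        exact hnot ⟨by omega, hpp, hsq⟩
      refine ⟨hpp, by omega, fun m hm => hsq m (hm.trans ?_)⟩
      rw [pow_succ 2 i, pow_mul, Nat.cast_pow, ← Real.rpow_natCast_mul (Nat.cast_nonneg _),
        show ((2 : ℕ) : ℝ) * (ε / 2) = ε by push_cast; ring]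
      exact Real.rpow_le_rpow (Nat.cast_nonneg _) (Nat.cast_le.2 hge.le) hε.le
    have h2 : ((exceptional ε (2 ^ 2 ^ (i + 1))).card : ℝ) ≤
        P.card + (exceptional ε (2 ^ 2 ^ i)).card := by
      rw [hP, ← Nat.cast_add]
      exact Nat.cast_le.2 card_le_card_sdiff_add_card
    push_cast
    linarith [le_max_left C 0]

theorem exists_card_exceptional_le_loglog {ε : ℝ} (hε : 0 < ε) :
    ∃ C : ℝ, ∀ N : ℕ, 3 ≤ N →
      ((exceptional ε N).card : ℝ) ≤ C * (Real.log (Real.log N) + 1) := by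
  classical
  obtain ⟨C, hC0, hC⟩ := exists_card_exceptional_two_pow_le hε
  refine ⟨8 * C + 3, fun N hN => ?_⟩
  obtain ⟨i, hi⟩ : ∃ i, i = Nat.clog 2 (Nat.clog 2 N) := ⟨_, rfl⟩
  have hsub : exceptional ε N ⊆ exceptional ε (2 ^ 2 ^ i) := fun p hp => by
    rw [exceptional, mem_filter, mem_range] at hp ⊢
    have h := (Nat.le_pow_clog one_lt_two N).trans (Nat.pow_le_pow_right two_pos
      (Nat.le_pow_clog one_lt_two (Nat.clog 2 N)))
    rw [← hi] at h
    exact ⟨by omega, hp.2⟩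
  refine ((Nat.cast_le.2 (card_le_card hsub)).trans (hC i)).trans ?_
  have hlog : 1 < Real.log N := by
    rw [Real.lt_log_iff_exp_lt (by positivity)]
    exact lt_of_lt_of_le (Real.exp_one_lt_d9.trans (by norm_num)) (Nat.ofNat_le_cast.2 hN)
  have hll : 0 ≤ Real.log (Real.log N) := (Real.log_pos hlog).le
  have hi2 : (i : ℝ) ≤ 8 * (Real.log (Real.log N) + 1) := by
    rcases le_or_gt i 1 with h | h
    · exact (Nat.cast_le.2 h).trans (by push_cast; linarith)
    have ha : 2 ^ (i - 1) < Nat.clog 2 N := (Nat.lt_clog_iff_pow_lt one_lt_two).1 (by omega)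
    have hb : 2 ^ (Nat.clog 2 N - 1) < N := Nat.pow_pred_clog_lt_self one_lt_two (by omega)
    have h3 : ((2 : ℝ) ^ (i - 1)) * Real.log 2 ≤ Real.log N + Real.log 2 := by
      have h4 : ((2 : ℝ) ^ (i - 1)) ≤ ((Nat.clog 2 N - 1 : ℕ) : ℝ) + 1 := by
        exact_mod_cast (show 2 ^ (i - 1) ≤ Nat.clog 2 N - 1 + 1 by omega)
      have h5 : ((Nat.clog 2 N - 1 : ℕ) : ℝ) * Real.log 2 ≤ Real.log N := by
        rw [← Real.log_pow]
        exact Real.log_le_log (by positivity) (by exact_mod_cast hb.le)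
      nlinarith [Real.log_pos one_lt_two]
    have h6 : Real.log ((2 : ℝ) ^ (i - 1)) ≤ Real.log (3 * Real.log N) := by
      refine Real.log_le_log (by positivity) ?_
      nlinarith [Real.log_two_gt_d9, Real.log_two_lt_d9,
        show (0 : ℝ) < (2 : ℝ) ^ (i - 1) by positivity]
    rw [Real.log_pow, Real.log_mul three_ne_zero (by linarith), Nat.cast_sub (by omega),
      Nat.cast_one] at h6
    have h7 : Real.log 3 ≤ 2 := by linarith [Real.log_le_sub_one_of_pos (zero_lt_three (α := ℝ))]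
    nlinarith [Real.log_two_gt_d9, Real.log_two_lt_d9]
  nlinarith

end FA.LinnikNonresidue
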