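import Fermat.Agent.ErdosKac.Mertens
import Mathlib.Analysis.SpecialFunctions.Pow.NthRootLemmas

/-!
# A positive proportion of smooth numbers

With `t ^ j² ≤ N`, a product `d` of `j` primes in `(t ^ (j - 1), t ^ j]` is at most `N` and leaves a
cofactor `≤ t ^ (j + 1)`, so its `N / d` multiples up to `N` are all `t ^ (j + 1)`-smooth; the
reciprocals of these primes sum to at least `1 / 2 j` and a number has few such prime factors.
-/

set_option autoImplicit false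

noncomputable section

namespace FA.LinnikNonresidue

open Finset Filter FA.ErdosKac

/-- The positive integers up to `N` with no prime factor above `y`. -/
def smoothUpTo (N : ℕ) (y : ℝ) : Finset ℕ :=
  (Ioc 0 N).filter fun n => ∀ q ∈ n.primeFactors, (q : ℝ) ≤ y

theorem mem_smoothUpTo {N n : ℕ} {y : ℝ} :
    n ∈ smoothUpTo N y ↔ (0 < n ∧ n ≤ N) ∧ ∀ q : ℕ, q.Prime → q ∣ n → (q : ℝ) ≤ y := by
  rw [smoothUpTo, mem_filter, mem_Ioc]
  exact and_congr_right fun h => forall_congr' fun q => by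
    rw [Nat.mem_primeFactors_of_ne_zero h.1.ne', and_imp]

theorem smoothUpTo_mono (N : ℕ) {y z : ℝ} (h : y ≤ z) : smoothUpTo N y ⊆ smoothUpTo N z :=
  fun _ hn => mem_smoothUpTo.2
    ⟨(mem_smoothUpTo.1 hn).1, fun q hq hd => ((mem_smoothUpTo.1 hn).2 q hq hd).trans h⟩

theorem exists_sum_inv_ge {j : ℕ} (hj : 2 ≤ j) : ∃ T : ℕ, 2 ≤ T ∧ ∀ t : ℕ, T ≤ t →
    1 / (2 * (j : ℝ)) ≤
      ∑ q ∈ (Ioc (t ^ (j - 1)) (t ^ j)).filter Nat.Prime, ((q : ℕ) : ℝ)⁻¹ := by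
  obtain ⟨C, hC⟩ := exists_abs_sum_log_div_sub_le
  have h := ((Real.tendsto_log_atTop.comp tendsto_natCast_atTop_atTop).eventually_ge_atTop
    (4 * C)).and (eventually_ge_atTop 2)
  obtain ⟨T, hT⟩ := eventually_atTop.1 h
  refine ⟨max T 2, le_max_right _ _, fun t ht => ?_⟩
  obtain ⟨hlog, ht2⟩ := hT t (le_trans (le_max_left _ _) ht)
  simp only [Function.comp_apply] at hlog
  have hl : 0 < Real.log t := Real.log_pos (Nat.one_lt_cast.2 (by omega))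
  have hsub : primesUpTo (t ^ (j - 1)) ⊆ primesUpTo (t ^ j) := fun q hq => by
    rw [mem_primesUpTo] at hq ⊢
    exact ⟨hq.1, hq.2.trans (Nat.pow_le_pow_right (by omega) (by omega))⟩
  have h1 := abs_le.1 (hC (t ^ j) (Nat.one_le_pow _ _ (by omega)))
  have h2 := abs_le.1 (hC (t ^ (j - 1)) (Nat.one_le_pow _ _ (by omega)))
  have e : primesUpTo (t ^ j) \ primesUpTo (t ^ (j - 1)) =
      (Ioc (t ^ (j - 1)) (t ^ j)).filter Nat.Prime := by
    ext q
    rw [Finset.mem_sdiff, mem_primesUpTo, mem_primesUpTo, mem_filter, mem_Ioc]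
    exact ⟨fun h => ⟨⟨not_le.1 fun h' => h.2 ⟨h.1.1, h'⟩, h.1.2⟩, h.1.1⟩,
      fun h => ⟨⟨h.2, h.1.2⟩, fun h' => absurd h'.2 (not_le.2 h.1.1)⟩⟩
  rw [← sum_sdiff hsub, e] at h1
  simp only [Nat.cast_pow, Real.log_pow, Nat.cast_sub (show 1 ≤ j by omega), Nat.cast_one]
    at h1 h2
  have h3 : ∑ q ∈ (Ioc (t ^ (j - 1)) (t ^ j)).filter Nat.Prime, Real.log q / q ≤
      j * Real.log t * ∑ q ∈ (Ioc (t ^ (j - 1)) (t ^ j)).filter Nat.Prime, ((q : ℕ) : ℝ)⁻¹ := by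
    rw [mul_sum]
    refine sum_le_sum fun q hq => ?_
    rw [mem_filter, mem_Ioc] at hq
    rw [div_eq_mul_inv]
    refine mul_le_mul_of_nonneg_right ?_ (inv_nonneg.2 (Nat.cast_nonneg q))
    rw [← Real.log_pow, ← Nat.cast_pow]
    exact Real.log_le_log (Nat.cast_pos.2 hq.2.pos) (Nat.cast_le.2 hq.1.2)
  have h4 : Real.log t / 2 ≤
      j * Real.log t * ∑ q ∈ (Ioc (t ^ (j - 1)) (t ^ j)).filter Nat.Prime, ((q : ℕ) : ℝ)⁻¹ := by
    linarith [h1.1, h2.2]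
  rw [div_le_iff₀ (by positivity)]
  refine le_of_mul_le_mul_left (a := Real.log t) ?_ hl
  linarith

theorem card_prime_dvd_le {j t n : ℕ} (hj : 2 ≤ j) (ht : 2 ≤ t) (hn : 0 < n)
    (hnt : n < (t + 1) ^ (j * j)) :
    (((Ioc (t ^ (j - 1)) (t ^ j)).filter Nat.Prime).filter (· ∣ n)).card ≤ 2 * (j * j) := by
  obtain ⟨L, hL⟩ : ∃ L, L = ((Ioc (t ^ (j - 1)) (t ^ j)).filter Nat.Prime).filter (· ∣ n) :=
    ⟨_, rfl⟩
  rw [← hL]
  have hmem : ∀ q ∈ L, q.Prime ∧ t ^ (j - 1) ≤ q ∧ q ∣ n := fun q hq => by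
    rw [hL, mem_filter, mem_filter, mem_Ioc] at hq
    exact ⟨hq.1.2, hq.1.1.1.le, hq.2⟩
  have h2 : (t ^ (j - 1)) ^ L.card ≤ n := (pow_card_le_prod L (fun q => q) _ fun q hq =>
    (hmem q hq).2.1).trans (Nat.le_of_dvd hn (prod_primes_dvd n
      (fun q hq => (hmem q hq).1.prime) fun q hq => (hmem q hq).2.2))
  have h3 : (t ^ (j - 1)) ^ L.card < t ^ (2 * (j * j)) := by
    rw [pow_mul]
    exact (h2.trans_lt hnt).trans_le (Nat.pow_le_pow_left (by nlinarith) _)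
  rw [← pow_mul, Nat.pow_lt_pow_iff_right (by omega)] at h3
  exact (Nat.le_mul_of_pos_left _ (by omega)).trans h3.le

theorem exists_card_smoothUpTo_ge {j : ℕ} (hj : 2 ≤ j) :
    ∃ δ : ℝ, 0 < δ ∧ ∃ T : ℕ, ∀ t : ℕ, T ≤ t → ∀ N : ℕ, t ^ (j * j) ≤ N →
      N < (t + 1) ^ (j * j) → δ * N ≤ (smoothUpTo N ((t ^ (j + 1) : ℕ) : ℝ)).card := by
  obtain ⟨T, hT2, hT⟩ := exists_sum_inv_ge hj
  refine ⟨(1 / (2 * (j : ℝ))) ^ j / (2 * ((2 * (j * j) : ℕ) : ℝ) ^ j), by positivity,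
    max T (2 ^ (j * j)), fun t ht N hlo hhi => ?_⟩
  have ht2 : 2 ≤ t := hT2.trans ((le_max_left _ _).trans ht)
  have htj : 2 ^ (j * j) ≤ t := (le_max_right _ _).trans ht
  obtain ⟨L, hL⟩ : ∃ L, L = (Ioc (t ^ (j - 1)) (t ^ j)).filter Nat.Prime := ⟨_, rfl⟩
  have hmem : ∀ q ∈ L, q.Prime ∧ t ^ (j - 1) ≤ q ∧ q ≤ t ^ j := fun q hq => by
    rw [hL, mem_filter, mem_Ioc] at hq
    exact ⟨hq.2, hq.1.1.le, hq.1.2⟩
  obtain ⟨S, hS⟩ : ∃ S, S = smoothUpTo N ((t ^ (j + 1) : ℕ) : ℝ) := ⟨_, rfl⟩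
  rw [← hS]
  -- a product of `j` of the primes is at most `N`, and its multiples up to `N` are smooth
  have hprod : ∀ f ∈ Fintype.piFinset (fun _ : Fin j => L),
      (∏ i, f i) ≤ N ∧ ((∏ i, f i) ≠ 0) ∧
        (Ioc 0 N).filter (fun n => (∏ i, f i) ∣ n) ⊆ S := by
    intro f hf
    rw [Fintype.mem_piFinset] at hf
    have hd0 : (∏ i, f i) ≠ 0 := prod_ne_zero_iff.2 fun i _ => (hmem _ (hf i)).1.ne_zero
    have hup : (∏ i, f i) ≤ t ^ (j * j) := by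
      refine (prod_le_pow_card univ f (t ^ j) fun i _ => (hmem _ (hf i)).2.2).trans ?_
      rw [card_univ, Fintype.card_fin, ← pow_mul]
    have hlow : t ^ ((j - 1) * j) ≤ ∏ i, f i := by
      refine le_trans ?_ (pow_card_le_prod univ f (t ^ (j - 1)) fun i _ => (hmem _ (hf i)).2.1)
      rw [card_univ, Fintype.card_fin, ← pow_mul]
    refine ⟨hup.trans hlo, hd0, fun n hn => ?_⟩
    rw [mem_filter] at hn
    rw [mem_Ioc] at hn
    rw [hS, mem_smoothUpTo]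
    refine ⟨hn.1, fun q hq hqn => Nat.cast_le.2 ?_⟩
    obtain ⟨m, rfl⟩ := hn.2
    rcases (Nat.Prime.dvd_mul hq).1 hqn with h | h
    · obtain ⟨i, -, hi⟩ := (hq.prime.dvd_finsetProd_iff f).1 h
      exact (Nat.le_of_dvd (hmem _ (hf i)).1.pos hi).trans ((hmem _ (hf i)).2.2.trans
        (Nat.pow_le_pow_right (by omega) (by omega)))
    · refine (Nat.le_of_dvd (Nat.pos_of_mul_pos_left hn.1.1) h).trans ?_
      have e : t ^ (j * j) = t ^ ((j - 1) * j) * t ^ j := by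
        rw [← pow_add, ← Nat.add_one_mul, Nat.sub_add_cancel (by omega)]
      have h1 : t ^ ((j - 1) * j) * m ≤ t ^ ((j - 1) * j) * t ^ (j + 1) := by
        refine (Nat.mul_le_mul_right m hlow).trans (hn.1.2.trans (hhi.le.trans ?_))
        refine (Nat.pow_le_pow_left (show t + 1 ≤ 2 * t by omega) _).trans ?_
        rw [mul_pow, pow_succ, ← mul_assoc, ← e, mul_comm]
        exact Nat.mul_le_mul_left _ htj
      exact Nat.le_of_mul_le_mul_left h1 (pow_pos (by omega) _)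
  -- count the pairs
  have hcount : ∑ f ∈ Fintype.piFinset (fun _ : Fin j => L), N / ∏ i, f i ≤
      S.card * (2 * (j * j)) ^ j := by
    calc ∑ f ∈ Fintype.piFinset (fun _ : Fin j => L), N / ∏ i, f i
        ≤ ∑ f ∈ Fintype.piFinset (fun _ : Fin j => L),
            (S.filter fun n => (∏ i, f i) ∣ n).card := sum_le_sum fun f hf => by
          rw [← Nat.Ioc_filter_dvd_card_eq_div]
          exact card_le_card fun n hn => mem_filter.2
            ⟨(hprod f hf).2.2 hn, (mem_filter.1 hn).2⟩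
      _ = ∑ n ∈ S, ((Fintype.piFinset (fun _ : Fin j => L)).filter
            fun f => (∏ i, f i) ∣ n).card := by
          simp only [card_filter]
          exact sum_comm
      _ ≤ ∑ _n ∈ S, (2 * (j * j)) ^ j := sum_le_sum fun n hn => by
          rw [hS, mem_smoothUpTo] at hn
          refine (card_le_card (t := Fintype.piFinset fun _ : Fin j => L.filter (· ∣ n))
            fun f hf => ?_).trans ?_
          · rw [mem_filter, Fintype.mem_piFinset] at hf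
            exact Fintype.mem_piFinset.2 fun i => mem_filter.2
              ⟨hf.1 i, (dvd_prod_of_mem f (mem_univ i)).trans hf.2⟩
          · rw [Fintype.card_piFinset, prod_const, card_univ, Fintype.card_fin]
            exact Nat.pow_le_pow_left (hL ▸ card_prime_dvd_le hj ht2 hn.1.1
              (hn.1.2.trans_lt hhi)) _
      _ = S.card * (2 * (j * j)) ^ j := by rw [sum_const, smul_eq_mul]
  have hfloor : ∀ f ∈ Fintype.piFinset (fun _ : Fin j => L),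
      (N : ℝ) / 2 * ∏ i, ((f i : ℕ) : ℝ)⁻¹ ≤ ((N / ∏ i, f i : ℕ) : ℝ) := by
    intro f hf
    obtain ⟨hle, hd0, -⟩ := hprod f hf
    obtain ⟨d, hd⟩ : ∃ d, d = ∏ i, f i := ⟨_, rfl⟩
    rw [prod_inv_distrib, ← Nat.cast_prod, ← hd, ← div_eq_mul_inv,
      div_le_iff₀ (Nat.cast_pos.2 (Nat.pos_of_ne_zero (hd ▸ hd0)))]
    rw [← hd] at hle hd0
    have h1 : 1 ≤ N / d := Nat.div_pos hle (Nat.pos_of_ne_zero hd0)
    have h2 := Nat.lt_div_mul_add (a := N) (Nat.pos_of_ne_zero hd0)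
    have h3 : N ≤ 2 * (N / d * d) := by
      have := Nat.le_mul_of_pos_left d h1
      omega
    have h4 : (N : ℝ) ≤ 2 * (((N / d : ℕ) : ℝ) * d) := by exact_mod_cast h3
    linarith
  have hN : (N : ℝ) / 2 * (1 / (2 * (j : ℝ))) ^ j ≤ S.card * ((2 * (j * j) : ℕ) : ℝ) ^ j := by
    refine (mul_le_mul_of_nonneg_left (pow_le_pow_left₀ (by positivity)
      (hL ▸ hT t ((le_max_left _ _).trans ht) :
        1 / (2 * (j : ℝ)) ≤ ∑ q ∈ L, ((q : ℕ) : ℝ)⁻¹) j) (by positivity)).trans ?_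
    rw [sum_pow', mul_sum]
    refine (sum_le_sum hfloor).trans ?_
    rw [← Nat.cast_sum, ← Nat.cast_pow, ← Nat.cast_mul]
    exact Nat.cast_le.2 hcount
  rw [div_mul_eq_mul_div, div_le_iff₀ (by positivity)]
  linarith

/-- For every `ε > 0` a positive proportion of the `n ≤ N` are `N ^ ε`-smooth. -/
theorem exists_smooth_proportion {ε : ℝ} (hε : 0 < ε) :
    ∃ δ : ℝ, 0 < δ ∧ ∀ᶠ N : ℕ in atTop, δ * N ≤ (smoothUpTo N ((N : ℝ) ^ ε)).card := by
  obtain ⟨j, hj⟩ : ∃ j, j = max 2 ⌈2 / ε⌉₊ := ⟨_, rfl⟩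
  have hj2 : 2 ≤ j := hj ▸ le_max_left _ _
  obtain ⟨δ, hδ, T, hT⟩ := exists_card_smoothUpTo_ge hj2
  refine ⟨δ, hδ, eventually_atTop.2 ⟨T ^ (j * j), fun N hN => ?_⟩⟩
  have hjj : j * j ≠ 0 := Nat.mul_ne_zero (by omega) (by omega)
  obtain ⟨t, ht⟩ : ∃ t, t = Nat.nthRoot (j * j) N := ⟨_, rfl⟩
  have hlo : t ^ (j * j) ≤ N := ht ▸ Nat.pow_nthRoot_le_iff.2 (Or.inl hjj)
  refine (hT t (ht ▸ (Nat.le_nthRoot_iff hjj).2 hN) N hlo
    (ht ▸ Nat.lt_pow_nthRoot_add_one hjj N)).trans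
    (Nat.cast_le.2 (card_le_card (smoothUpTo_mono N ?_)))
  rcases Nat.eq_zero_or_pos t with rfl | ht0
  · simp [Real.rpow_nonneg]
  have ht1 : (1 : ℝ) ≤ t := Nat.one_le_cast.2 ht0
  calc ((t ^ (j + 1) : ℕ) : ℝ) ≤ (t : ℝ) ^ (((j * j : ℕ) : ℝ) * ε) := by
        rw [Nat.cast_pow, ← Real.rpow_natCast (t : ℝ) (j + 1)]
        refine Real.rpow_le_rpow_of_exponent_le ht1 ?_
        have h1 : 2 / ε ≤ j := (Nat.le_ceil _).trans (Nat.cast_le.2 (hj ▸ le_max_right _ _))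
        rw [div_le_iff₀ hε] at h1
        have h2 : (2 : ℝ) ≤ j := Nat.ofNat_le_cast.2 hj2
        push_cast
        nlinarith
    _ ≤ (N : ℝ) ^ ε := by
        rw [Real.rpow_mul (Nat.cast_nonneg t), Real.rpow_natCast, ← Nat.cast_pow]
        exact Real.rpow_le_rpow (Nat.cast_nonneg _) (Nat.cast_le.2 hlo) hε.le

end FA.LinnikNonresidue
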